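import Mathlib.Algebra.MvPolynomial.PDeriv
import Mathlib.Algebra.Polynomial.Derivation
import Mathlib.RingTheory.MvPolynomial.Homogeneous
import Mathlib.RingTheory.MvPolynomial.EulerIdentity
import Mathlib.Analysis.Complex.Polynomial.Basic
import Mathlib.FieldTheory.AlgebraicClosure

/-!
# Plane curves near the line at infinity

The homogenisation of `f ∈ ℤ[X, Y]`, its charts at the line at infinity and the six monomials of
degree two. `SimpleZeros F k` says that the binary form `F` has no multiple zero with values in `k`.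
-/

set_option autoImplicit false
set_option linter.style.haveILetI false

noncomputable section

namespace FA.AsymptoticDirections

open MvPolynomial Finset

variable {R S : Type*} [CommRing R] [CommRing S]

/-- The binary form `F` has no multiple zero in `k ^ 2` besides the origin. -/
def SimpleZeros (F : MvPolynomial (Fin 2) ℤ) (k : Type*) [CommRing k] : Prop :=
  ∀ v : Fin 2 → k, v ≠ 0 → aeval v F = 0 → ∃ i, aeval v (pderiv i F) ≠ 0

/-- The homogenisation in degree `n`, evaluated at `P`; the third coordinate is the new one. -/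
def hev (f : MvPolynomial (Fin 2) ℤ) (n : ℕ) (P : Fin 3 → R) : R :=
  ∑ m ∈ f.support, ((f.coeff m : ℤ) : R) * P 0 ^ m 0 * P 1 ^ m 1 * P 2 ^ (n - (m 0 + m 1))

theorem map_hev (φ : R →+* S) (f : MvPolynomial (Fin 2) ℤ) (n : ℕ) (P : Fin 3 → R) :
    φ (hev f n P) = hev f n (φ ∘ P) := by
  simp [hev, map_sum, Function.comp_apply]

theorem le_of_mem_support {f : MvPolynomial (Fin 2) ℤ} {n : ℕ} (hf : f.totalDegree ≤ n)
    {m : Fin 2 →₀ ℕ} (hm : m ∈ f.support) : m 0 + m 1 ≤ n := by
  have h := (le_totalDegree hm).trans hf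
  rwa [Finsupp.sum_fintype _ _ (fun _ => rfl), Fin.sum_univ_two] at h

theorem hev_smul {f : MvPolynomial (Fin 2) ℤ} {n : ℕ} (hf : f.totalDegree ≤ n) (c : R)
    (P : Fin 3 → R) : hev f n (c • P) = c ^ n * hev f n P := by
  simp only [hev, Pi.smul_apply, smul_eq_mul, mul_sum, mul_pow]
  refine sum_congr rfl fun m hm => ?_
  have h : c ^ n = c ^ m 0 * c ^ m 1 * c ^ (n - (m 0 + m 1)) := by
    rw [← pow_add, ← pow_add, Nat.add_sub_cancel' (le_of_mem_support hf hm)]
  rw [h]
  ring

theorem hev_one (f : MvPolynomial (Fin 2) ℤ) (n : ℕ) (x y : R) :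
    hev f n ![x, y, 1] = aeval ![x, y] f := by
  rw [aeval_def, eval₂_eq']
  simp [hev, mul_assoc]

theorem hev_zero {f : MvPolynomial (Fin 2) ℤ} {n : ℕ} (hf : f.totalDegree ≤ n) (x y : R) :
    hev f n ![x, y, 0] = aeval ![x, y] (homogeneousComponent n f) := by
  rw [homogeneousComponent_apply, map_sum, hev, sum_filter]
  refine sum_congr rfl fun m hm => ?_
  have hd : m.degree = m 0 + m 1 := by
    rw [Finsupp.degree_eq_sum, Fin.sum_univ_two]
  have hmn := le_of_mem_support hf hm
  by_cases h : m.degree = n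
  · rw [if_pos h, aeval_monomial, Finsupp.prod_fintype _ _ (fun _ => pow_zero _),
      Fin.prod_univ_two]
    simp [← hd, h, mul_assoc]
  · rw [if_neg h]
    have h0 : n - (m 0 + m 1) ≠ 0 := by omega
    simp [h0]

/-- The point `(1 : w : t)` or `(w : 1 : t)`. -/
def chart (u : Fin 2) (t w : R) : Fin 3 → R :=
  if u = 0 then ![1, w, t] else ![w, 1, t]

/-- The point `(1, w)` or `(w, 1)`. -/
def pairAt (u : Fin 2) (w : R) : Fin 2 → R :=
  if u = 0 then ![1, w] else ![w, 1]

theorem map_chart (φ : R →+* S) (u : Fin 2) (t w : R) :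
    φ ∘ chart u t w = chart u (φ t) (φ w) := by
  fin_cases u <;> funext i <;> fin_cases i <;> simp [chart]

theorem hev_chart_zero {f : MvPolynomial (Fin 2) ℤ} {n : ℕ} (hf : f.totalDegree ≤ n) (u : Fin 2)
    (w : R) : hev f n (chart u 0 w) = aeval (pairAt u w) (homogeneousComponent n f) := by
  fin_cases u <;> simpa [chart, pairAt] using hev_zero hf _ _

theorem map_pairAt (φ : R →+* S) (u : Fin 2) (w : R) :
    φ ∘ pairAt u w = pairAt u (φ w) := by
  fin_cases u <;> funext i <;> fin_cases i <;> simp [pairAt]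

theorem eq_smul_chart {k : Type*} [Field k] (P : Fin 3 → k) (u : Fin 2) (hu : P u.castSucc ≠ 0) :
    P = P u.castSucc • chart u (P 2 / P u.castSucc) (P (1 - u).castSucc / P u.castSucc) := by
  funext i
  fin_cases u <;> fin_cases i <;> simp_all [chart, mul_div_cancel₀]

/-- The first factors of the six monomials of degree two. -/
def monoFst : Fin 6 → Fin 3 := ![2, 0, 1, 0, 0, 1]

/-- The second factors of the six monomials of degree two. -/
def monoSnd : Fin 6 → Fin 3 := ![2, 2, 2, 0, 1, 1]

/-- The six monomials of degree two. -/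
def mono (P : Fin 3 → R) (i : Fin 6) : R := P (monoFst i) * P (monoSnd i)

theorem map_mono (φ : R →+* S) (P : Fin 3 → R) (i : Fin 6) :
    φ (mono P i) = mono (φ ∘ P) i := by
  simp [mono]

theorem mono_smul (c : R) (P : Fin 3 → R) : mono (c • P) = c ^ 2 • mono P := by
  funext i
  simp only [mono, Pi.smul_apply, smul_eq_mul]
  ring

/-- The chain rule in one variable. -/
theorem derivative_aeval {σ : Type*} [Fintype σ] [DecidableEq σ] (g : σ → Polynomial R)
    (F : MvPolynomial σ ℤ) :
    Polynomial.derivative (aeval g F) =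
      ∑ i, aeval g (pderiv i F) * Polynomial.derivative (g i) := by
  induction F using MvPolynomial.induction_on with
  | C a => simp
  | add p q hp hq => simp [hp, hq, add_mul, sum_add_distrib]
  | mul_X p j hp =>
    simp only [map_mul, aeval_X, Polynomial.derivative_mul, hp, Derivation.leibniz, pderiv_X,
      map_add, smul_eq_mul, sum_mul, add_mul, sum_add_distrib]
    rw [add_comm]
    congr 1
    · rw [Finset.sum_eq_single j (fun b _ hb => by simp [Pi.single_eq_of_ne hb.symm])
        (fun h => absurd (mem_univ j) h)]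
      simp
    · exact sum_congr rfl fun i _ => by ring

/-- A simple zero on the line at infinity is a simple root in the chart. -/
theorem derivative_ne_zero {k : Type*} [Field k] {F : MvPolynomial (Fin 2) ℤ} {n : ℕ}
    (hF : F.IsHomogeneous n) (hs : SimpleZeros F k) (u : Fin 2) {θ : k}
    (hθ : aeval (pairAt u θ) F = 0) :
    (Polynomial.derivative (aeval (pairAt u (Polynomial.X : Polynomial k)) F)).eval θ ≠ 0 := by
  obtain ⟨i, hi⟩ := hs (pairAt u θ) (fun h => by
    have := congrFun h u
    fin_cases u <;> simp [pairAt] at this) hθ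
  have heul : aeval (pairAt u θ) (∑ i, X i * pderiv i F) = 0 := by
    rw [hF.sum_X_mul_pderiv, map_nsmul, hθ, smul_zero]
  rw [derivative_aeval, Polynomial.eval_finsetSum]
  simp only [Polynomial.eval_mul, ← Polynomial.coe_evalRingHom, map_aeval,
    Fin.sum_univ_two, map_add, map_mul, aeval_X] at heul ⊢
  have e : ∀ G : MvPolynomial (Fin 2) ℤ,
      eval₂Hom ((Polynomial.evalRingHom θ).comp (algebraMap ℤ (Polynomial k)))
        (fun j => Polynomial.evalRingHom θ (pairAt u Polynomial.X j)) G =
        aeval (pairAt u θ) G := fun G => by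
    rw [show (fun j => Polynomial.evalRingHom θ (pairAt u Polynomial.X j)) = pairAt u θ by
      simpa [Function.comp_def] using map_pairAt (Polynomial.evalRingHom θ) u Polynomial.X,
      show (Polynomial.evalRingHom θ).comp (algebraMap ℤ (Polynomial k)) = algebraMap ℤ k from
        RingHom.ext_int _ _]
    rfl
  simp only [e]
  fin_cases u <;> fin_cases i <;> simp [pairAt] at hi heul ⊢ <;> first
    | exact hi
    | (intro h; exact hi (by simpa [h] using heul))

/-- Simple zeros in `ℂ` force simple zeros in every field of characteristic zero. -/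
theorem SimpleZeros.of_complex {F : MvPolynomial (Fin 2) ℤ} (hs : SimpleZeros F ℂ)
    {k : Type*} [Field k] [CharZero k] {v : Fin 2 → k} (hv : v ≠ 0) (hF : aeval v F = 0)
    (halg : ∀ i, IsAlgebraic ℚ (v i)) : ∃ i, aeval v (pderiv i F) ≠ 0 := by
  set K := algebraicClosure ℚ k
  let w : Fin 2 → K := fun i => ⟨v i, mem_algebraicClosure_iff.2 (halg i)⟩
  haveI : Algebra.IsAlgebraic ℚ K := algebraicClosure.isAlgebraic ℚ k
  let σ : K →ₐ[ℚ] ℂ := IsAlgClosed.lift
  have h1 : ∀ G : MvPolynomial (Fin 2) ℤ, aeval v G = ((aeval w G : K) : k) := fun G => by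
    rw [show v = fun i => (K.val.restrictScalars ℤ) (w i) from rfl,
      ← comp_aeval_apply w (K.val.restrictScalars ℤ) G]
    rfl
  have h2 : ∀ G : MvPolynomial (Fin 2) ℤ,
      σ (aeval w G) = aeval (fun i => σ (w i)) G := fun G =>
    comp_aeval_apply w (σ.restrictScalars ℤ) G
  have hw : (fun i => σ (w i)) ≠ 0 := fun h => hv (funext fun i => by
    have hi : w i = 0 := σ.injective (by simpa using congrFun h i)
    simpa [w] using congrArg Subtype.val hi)
  rw [h1, ZeroMemClass.coe_eq_zero] at hF
  obtain ⟨i, hi⟩ := hs _ hw (by rw [← h2, hF, map_zero])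
  exact ⟨i, fun h => hi (by rw [h1, ZeroMemClass.coe_eq_zero] at h; rw [← h2, h, map_zero])⟩

theorem SimpleZeros.homogeneousComponent_ne_zero {k : Type*} [Field k]
    {F : MvPolynomial (Fin 2) ℤ} (hs : SimpleZeros F k) : F ≠ 0 := by
  rintro rfl
  obtain ⟨i, hi⟩ := hs 1 one_ne_zero (map_zero _)
  simp at hi

end FA.AsymptoticDirections

end
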