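import Fermat.Agent.AsymptoticDirections.Global

/-!
# Distinct asymptotic directions

A form with simple zeros over `ℂ`, that is with distinct linear factors, has simple zeros in every
field of characteristic zero.
-/

set_option autoImplicit false
set_option linter.style.haveILetI false

noncomputable section

namespace FA.AsymptoticDirections

open Polynomial

/-- The dehomogenised form with integer coefficients. -/
theorem aeval_chartPoly {R : Type*} [CommRing R] {f : MvPolynomial (Fin 2) ℤ} {n : ℕ}
    (hf : f.totalDegree ≤ n) (u : Fin 2) (w : R) :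
    Polynomial.aeval w (hev f n (chart u 0 (X : ℤ[X]))) =
      MvPolynomial.aeval (pairAt u w) (MvPolynomial.homogeneousComponent n f) := by
  rw [← hev_chart_zero hf, ← AlgHom.coe_toRingHom, map_hev, map_chart]
  simp

/-- Simple zeros over `ℂ` give simple zeros everywhere. -/
theorem simpleZeros_of_complex {f : MvPolynomial (Fin 2) ℤ} {n : ℕ} (hf : f.totalDegree ≤ n)
    (hs : SimpleZeros (MvPolynomial.homogeneousComponent n f) ℂ) (k : Type*) [Field k]
    [CharZero k] : SimpleZeros (MvPolynomial.homogeneousComponent n f) k := by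
  intro v hv h0
  have hF := MvPolynomial.homogeneousComponent_isHomogeneous (R := ℤ) n f
  obtain ⟨u, hu⟩ := Function.ne_iff.1 hv
  have hscale : ∀ {m : ℕ} {G : MvPolynomial (Fin 2) ℤ}, G.IsHomogeneous m → ∀ (c : k)
      (x : Fin 2 → k), MvPolynomial.aeval (c • x) G = c ^ m * MvPolynomial.aeval x G :=
    fun {m G} hG c x => by
      rw [MvPolynomial.aeval_def, MvPolynomial.eval₂_eq', MvPolynomial.aeval_def,
        MvPolynomial.eval₂_eq', Finset.mul_sum]
      refine Finset.sum_congr rfl fun d hd => ?_
      have h := hG.degree_eq_sum_deg_support hd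
      rw [Finset.sum_subset (Finset.subset_univ _) (fun i _ hi => by simpa using hi),
        Fin.sum_univ_two] at h
      simp only [Fin.prod_univ_two, Pi.smul_apply, smul_eq_mul, mul_pow, h, pow_add]
      ring
  set w := v (1 - u) / v u
  have hvw : v = v u • pairAt u w := by
    funext i
    fin_cases u <;> fin_cases i <;> simp_all [w, pairAt, mul_div_cancel₀]
  rw [hvw, hscale hF, mul_eq_zero] at h0
  have hw := h0.resolve_left (pow_ne_zero _ hu)
  set p : ℤ[X] := hev f n (chart u 0 X) with hp
  have hp0 : p ≠ 0 := fun h => by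
    have h1 := derivative_ne_zero hF hs u (θ := 0) (by
      rw [← aeval_chartPoly hf, ← hp, h, map_zero])
    refine h1 ?_
    have h2 := aeval_chartPoly hf u (X : ℂ[X])
    rw [← hp, h, map_zero] at h2
    rw [show MvPolynomial.aeval (pairAt u (X : ℂ[X])) (MvPolynomial.homogeneousComponent n f) = 0 by
      convert h2.symm using 3
      all_goals rfl]
    simp
  have halg : IsAlgebraic ℚ w := IsAlgebraic.extendScalars (R := ℤ) Int.cast_injective
    ⟨p, hp0, (aeval_chartPoly hf u w).trans hw⟩
  obtain ⟨i, hi⟩ := hs.of_complex (v := pairAt u w) (fun h => by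
      have := congrFun h u
      fin_cases u <;> simp [pairAt] at this) hw (fun i => by
      fin_cases u <;> fin_cases i <;> simp [pairAt, halg, isAlgebraic_one])
  refine ⟨i, ?_⟩
  rw [hvw, hscale hF.pderiv]
  exact mul_ne_zero (pow_ne_zero _ hu) hi

/-- **Siegel's theorem** for curves with distinct asymptotic directions. -/
theorem finite_sIntegralZeros_complex {f : MvPolynomial (Fin 2) ℤ}
    (hirr : Irreducible (f.map (Int.castRingHom ℚ))) (hdeg : 3 ≤ f.totalDegree)
    (hs : SimpleZeros (MvPolynomial.homogeneousComponent f.totalDegree f) ℂ) (S : Finset ℕ)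
    (hS : ∀ q ∈ S, q.Prime) : (sIntegralZeros f S).Finite :=
  finite_sIntegralZeros hirr hdeg (simpleZeros_of_complex le_rfl hs ℝ) S hS fun q _ _ =>
    simpleZeros_of_complex le_rfl hs ℚ_[q]

end FA.AsymptoticDirections

end
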