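import Fermat.Agent.AsymptoticDirections.Local
import Fermat.Agent.Subspace.Padic
import Fermat.Agent.BezoutCurves.Basic
import Mathlib.NumberTheory.Padics.ProperSpace

/-!
# Siegel's theorem for curves with simple points at infinity

If the top form of `f` has no multiple zero over `ℝ` and over `ℚ_p`, `p ∈ S`, the subspace theorem
puts the `S`-integral zeros of `f` on finitely many conics (Corvaja–Zannier); for irreducible `f`
of degree at least three there are then only finitely many.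
-/

set_option autoImplicit false
set_option linter.style.haveILetI false

noncomputable section

namespace FA.AsymptoticDirections

open Finset Matrix FA.Perfect

/-- An `S`-unit times all its absolute values in `S` is one. -/
theorem natCast_mul_prod_norm {s : ℕ} (p : Fin s → ℕ) [hp : ∀ l, Fact (p l).Prime]
    (hinj : Function.Injective p) {m : ℕ} (hm : m ≠ 0)
    (hS : ∀ q ∈ m.primeFactors, ∃ l, p l = q) :
    (m : ℝ) * ∏ l, ‖(m : ℚ_[p l])‖ = 1 := by
  classical
  have h1 : ∀ l, ‖(m : ℚ_[p l])‖ = (((p l ^ m.factorization (p l) : ℕ) : ℝ))⁻¹ := fun l => by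
    rw [show (m : ℚ_[p l]) = ((m : ℚ) : ℚ_[p l]) by simp, Padic.eq_padicNorm,
      padicNorm.eq_zpow_of_nonzero (Nat.cast_ne_zero.2 hm), padicValRat.of_nat,
      Nat.factorization_def m (hp l).out, Rat.cast_zpow, Rat.cast_natCast, _root_.zpow_neg,
      zpow_natCast, Nat.cast_pow]
  have h2 : ∏ l, p l ^ m.factorization (p l) = m := by
    have e : m.factorization.prod (fun q k => q ^ k) = m := Nat.prod_factorization_pow_eq_self hm
    rw [Finsupp.prod_of_support_subset _ (s := univ.image p) (fun q hq => by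
      obtain ⟨l, rfl⟩ := hS q hq
      exact mem_image_of_mem _ (mem_univ l)) _ (fun _ _ => pow_zero _),
      prod_image fun a _ b _ h => hinj h] at e
    exact e
  simp only [h1, prod_inv_distrib]
  rw [← Nat.cast_prod, h2, mul_inv_cancel₀ (Nat.cast_ne_zero.2 hm)]

theorem norm_castVec_mono_le (X : Fin 3 → ℤ) :
    ‖castVec (mono X)‖ ≤ ‖fun i => (X i : ℝ)‖ ^ 2 := by
  refine (pi_norm_le_iff_of_nonneg (sq_nonneg _)).2 fun i => ?_
  simp only [castVec, mono, Int.cast_mul, norm_mul, sq]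
  exact mul_le_mul (norm_le_pi_norm (fun i => (X i : ℝ)) _) (norm_le_pi_norm (fun i => (X i : ℝ)) _)
    (norm_nonneg _) (norm_nonneg _)

/-- **The integral triples of the curve with `S`-unit last coordinate lie on finitely many
conics.** -/
theorem exists_conics {f : MvPolynomial (Fin 2) ℤ} {n : ℕ} (hf : f.totalDegree ≤ n)
    (hR : SimpleZeros (MvPolynomial.homogeneousComponent n f) ℝ)
    {s : ℕ} (p : Fin s → ℕ) [hp : ∀ l, Fact (p l).Prime] (hinj : Function.Injective p)
    (hQ : ∀ l, SimpleZeros (MvPolynomial.homogeneousComponent n f) ℚ_[p l]) :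
    ∃ V : Finset (Fin 6 → ℤ), (∀ v ∈ V, v ≠ 0) ∧ ∀ X : Fin 3 → ℤ, X 2 ≠ 0 →
      (∀ q ∈ (X 2).natAbs.primeFactors, ∃ l, p l = q) →
      (∀ l, ∃ i, ¬ (p l : ℤ) ∣ X i) → hev f n X = 0 → ∃ v ∈ V, v ⬝ᵥ mono X = 0 := by
  classical
  obtain ⟨T, C₀, hC₀, hT, hTx⟩ := exists_forms (k := ℝ) hf hR
  choose U Cp hCp hU hUx using fun l => exists_forms (k := ℚ_[p l]) hf (hQ l)
  let ι := {A // A ∈ T} × (∀ l, {A // A ∈ U l})
  choose W hW hWx using fun c : ι => Subspace.finite_subspaces_padic_algebraic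
    (n := 5) (by norm_num) p hinj (fun l => (c.2 l).1) (fun l => (hU l _ (c.2 l).2).1)
    (fun l => (hU l _ (c.2 l).2).2) (c.1.1.map Complex.ofRealHom)
    (by rw [← RingHom.mapMatrix_apply, ← RingHom.map_det]
        exact (map_ne_zero_iff _ Complex.ofReal_injective).2 (hT _ c.1.2).1)
    (fun i j => ((hT _ c.1.2).2 i j).algebraMap (A := ℂ)) (δ := 1) one_pos
  choose orth horth0 horth using fun x : Fin 6 → ℤ => Subspace.exists_orth (n := 5) (by norm_num) x
  set C := C₀ * ∏ l, Cp l with hC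
  set B : Finset (Fin 3 → ℤ) := Fintype.piFinset fun _ => Icc (-⌈C⌉) ⌈C⌉
  refine ⟨univ.biUnion W ∪ B.image fun X => orth (mono X), ?_, fun X hz hS hprim hX => ?_⟩
  · intro v hv
    rcases mem_union.1 hv with h | h
    · obtain ⟨c, -, hc⟩ := mem_biUnion.1 h
      exact hW c v hc
    · obtain ⟨X, -, rfl⟩ := mem_image.1 h
      exact horth0 _
  by_cases hXB : X ∈ B
  · exact ⟨_, mem_union_right _ (mem_image_of_mem _ hXB), horth _⟩
  set Y : Fin 3 → ℝ := fun i => (X i : ℝ) with hY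
  have hM : C < ‖Y‖ := by
    by_contra! h
    refine hXB (Fintype.mem_piFinset.2 fun i => ?_)
    have h1 : ((|X i| : ℤ) : ℝ) ≤ C := by
      simpa [hY] using (norm_le_pi_norm Y i).trans h
    have h2 : (|X i| : ℤ) ≤ ⌈C⌉ := by exact_mod_cast h1.trans (Int.le_ceil C)
    exact mem_Icc.2 (abs_le.1 h2)
  have hYz : hev f n Y = 0 := by
    rw [show Y = Int.castRingHom ℝ ∘ X from rfl, ← map_hev, hX, map_zero]
  have hY0 : Y ≠ 0 := fun h => hz (by simpa [hY] using congrFun h 2)
  obtain ⟨A, hA, hAx⟩ := hTx Y hY0 hYz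
  have hpl : ∀ l, ∃ D ∈ U l, ∏ j, ‖∑ i, D j i * mono (fun i => (X i : ℚ_[p l])) i‖ ≤
      Cp l * ‖(X 2 : ℚ_[p l])‖ ^ 15 := fun l => by
    have h1 : ‖fun i => (X i : ℚ_[p l])‖ = 1 := by
      refine le_antisymm ((pi_norm_le_iff_of_nonneg zero_le_one).2 fun i =>
        Padic.norm_int_le_one _) ?_
      obtain ⟨i, hi⟩ := hprim l
      refine le_trans ?_ (norm_le_pi_norm (fun i => (X i : ℚ_[p l])) i)
      exact not_lt.1 fun h => hi (Padic.norm_intCast_lt_one_iff.1 h)
    obtain ⟨D, hD, hDx⟩ := hUx l (fun i => (X i : ℚ_[p l]))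
      (fun h => by rw [h, norm_zero] at h1; exact zero_ne_one h1) (by
        rw [show (fun i => (X i : ℚ_[p l])) = Int.castRingHom _ ∘ X from rfl, ← map_hev, hX,
          map_zero])
    exact ⟨D, hD, by simpa [h1] using hDx⟩
  choose D hD hDx using hpl
  refine (hWx (⟨A, hA⟩, fun l => ⟨D l, hD l⟩) (mono X) (fun h => hz (by
    simpa [mono, monoFst, monoSnd] using congrFun h 0)) ?_).imp fun v hv =>
      ⟨mem_union_left _ (mem_biUnion.2 ⟨_, mem_univ _, hv.1⟩), hv.2⟩
  have e1 : ∀ i, ‖∑ k, (A.map Complex.ofRealHom) i k * ((mono X k : ℤ) : ℂ)‖ =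
      ‖∑ k, A i k * mono Y k‖ := fun i => by
    rw [← Complex.norm_real]
    congr 1
    simp [mono, hY]
  have e2 : ∀ l i, ‖∑ k, D l i k * ((mono X k : ℤ) : ℚ_[p l])‖ =
      ‖∑ k, D l i k * mono (fun i => (X i : ℚ_[p l])) k‖ := fun l i => by
    simp [mono]
  simp only [e1, e2]
  have hMpos : 0 < ‖Y‖ := norm_pos_iff.2 hY0
  have hone : ‖Y 2‖ ^ 15 * ∏ l, ‖(X 2 : ℚ_[p l])‖ ^ 15 = 1 := by
    rw [prod_pow, ← mul_pow]
    have e3 : ‖Y 2‖ = ((X 2).natAbs : ℝ) := by rw [hY, Nat.cast_natAbs]; simp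
    have e4 : ∀ l, ‖(X 2 : ℚ_[p l])‖ = ‖((X 2).natAbs : ℚ_[p l])‖ := fun l => by
      rcases Int.natAbs_eq (X 2) with h | h <;> conv_lhs => rw [h]
      · simp
      · rw [Int.cast_neg, norm_neg, Int.cast_natCast]
    simp only [e4]
    rw [e3, natCast_mul_prod_norm p hinj (Int.natAbs_ne_zero.2 hz) hS, one_pow]
  have hnpos : 0 < ‖castVec (mono X)‖ := norm_pos_iff.2 fun h => hz (by
    simpa [castVec, mono, monoFst, monoSnd] using congrFun h 0)
  rw [Real.rpow_neg_one]
  refine lt_of_le_of_lt (mul_le_mul hAx (prod_le_prod (fun l _ => prod_nonneg fun i _ =>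
    norm_nonneg _) fun l _ => hDx l) (prod_nonneg fun l _ => prod_nonneg fun i _ => norm_nonneg _)
    (by positivity)) ?_
  refine lt_of_lt_of_le ?_ (inv_anti₀ hnpos (norm_castVec_mono_le X))
  rw [prod_mul_distrib]
  calc C₀ * (‖Y 2‖ ^ 15 / ‖Y‖ ^ 3) * ((∏ l, Cp l) * ∏ l, ‖(X 2 : ℚ_[p l])‖ ^ 15)
      = C * (‖Y 2‖ ^ 15 * ∏ l, ‖(X 2 : ℚ_[p l])‖ ^ 15) / ‖Y‖ ^ 3 := by rw [hC]; ring
    _ < (‖Y‖ ^ 2)⁻¹ := by
      rw [hone, mul_one, div_lt_iff₀ (by positivity), inv_mul_eq_div,
        lt_div_iff₀ (by positivity)]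
      calc C * ‖Y‖ ^ 2 < ‖Y‖ * ‖Y‖ ^ 2 := by gcongr
        _ = ‖Y‖ ^ 3 := by ring

/-- The rational points of `f = 0` with `S`-integral coordinates. -/
def sIntegralZeros (f : MvPolynomial (Fin 2) ℤ) (S : Finset ℕ) : Set (ℚ × ℚ) :=
  {P | MvPolynomial.aeval ![P.1, P.2] f = 0 ∧ P.1.den.primeFactors ⊆ S ∧
    P.2.den.primeFactors ⊆ S}

/-- A conic with integer coefficients `v`, at the affine point `(x, y)`. -/
def conic {R : Type*} [CommRing R] (v : Fin 6 → ℤ) (x y : R) : R :=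
  ∑ i, (v i : R) * mono ![x, y, 1] i

/-- **The `S`-integral zeros lie on finitely many conics.** -/
theorem exists_conics_zeros {f : MvPolynomial (Fin 2) ℤ} {n : ℕ} (hf : f.totalDegree ≤ n)
    (hR : SimpleZeros (MvPolynomial.homogeneousComponent n f) ℝ) (S : Finset ℕ)
    (hS : ∀ q ∈ S, q.Prime) (hQ : ∀ q ∈ S, ∀ [Fact q.Prime],
      SimpleZeros (MvPolynomial.homogeneousComponent n f) ℚ_[q]) :
    ∃ V : Finset (Fin 6 → ℤ), (∀ v ∈ V, v ≠ 0) ∧
      ∀ P ∈ sIntegralZeros f S, ∃ v ∈ V, conic v P.1 P.2 = 0 := by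
  classical
  set p : Fin S.card → ℕ := fun l => (S.equivFin.symm l).1 with hpdef
  haveI hpF : ∀ l, Fact (p l).Prime := fun l => ⟨hS _ (S.equivFin.symm l).2⟩
  obtain ⟨V, hV, hVx⟩ := exists_conics hf hR p
    (fun a b h => S.equivFin.symm.injective (Subtype.ext h))
    (fun l => hQ _ (S.equivFin.symm l).2)
  refine ⟨V, hV, ?_⟩
  rintro ⟨x, y⟩ ⟨hxy, hx, hy⟩
  simp only at hxy hx hy ⊢
  set z := Nat.lcm x.den y.den with hz
  have hz0 : z ≠ 0 := Nat.lcm_ne_zero x.den_nz y.den_nz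
  set a : ℕ := z / x.den with ha
  set b : ℕ := z / y.den with hb
  have hax : x.den * a = z := Nat.mul_div_cancel' (Nat.dvd_lcm_left _ _)
  have hby : y.den * b = z := Nat.mul_div_cancel' (Nat.dvd_lcm_right _ _)
  set X : Fin 3 → ℤ := ![x.num * a, y.num * b, z] with hX
  have hcast : (fun i => (X i : ℚ)) = (z : ℚ) • ![x, y, 1] := by
    funext i
    fin_cases i
    · simp only [hX, Pi.smul_apply, smul_eq_mul]
      rw [← hax]
      simp only [Fin.zero_eta, Matrix.cons_val_zero, Int.cast_mul, Int.cast_natCast, Nat.cast_mul]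
      rw [← x.mul_den_eq_num]
      ring
    · simp only [hX, Pi.smul_apply, smul_eq_mul]
      rw [← hby]
      simp only [Fin.mk_one, Matrix.cons_val_one, Matrix.cons_val_zero, Int.cast_mul,
        Int.cast_natCast, Nat.cast_mul]
      rw [← y.mul_den_eq_num]
      ring
    · simp [hX]
  have hzero : hev f n X = 0 := by
    refine Int.cast_injective (α := ℚ) ?_
    show Int.castRingHom ℚ (hev f n X) = Int.castRingHom ℚ 0
    rw [map_hev, map_zero,
      show (Int.castRingHom ℚ) ∘ X = fun i => (X i : ℚ) from rfl, hcast, hev_smul hf, hev_one,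
      hxy, mul_zero]
  refine (hVx X (by simpa [hX] using hz0) (fun q hq => ?_) (fun l => ?_) hzero).imp
    fun v ⟨hv, hvX⟩ => ⟨hv, ?_⟩
  · have hq' : q ∈ z.primeFactors := by simpa [hX] using hq
    have hdvd : z ∣ x.den * y.den := Nat.lcm_dvd_mul _ _
    have h1 := Nat.primeFactors_mono hdvd (Nat.mul_ne_zero x.den_nz y.den_nz) hq'
    rw [Nat.primeFactors_mul x.den_nz y.den_nz] at h1
    have hqS : q ∈ S := (mem_union.1 h1).elim (fun h => hx h) (fun h => hy h)
    exact ⟨S.equivFin ⟨q, hqS⟩, by simp [hpdef]⟩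
  · by_contra! h
    have hq := (hpF l).out
    set q := p l
    have hqz : q ∣ z := by simpa [hX, Int.natCast_dvd_natCast] using h 2
    have key : ∀ (r : ℚ) (c : ℕ), r.den * c = z → (q : ℤ) ∣ r.num * c → r.den ∣ z / q := by
      intro r c hc hd
      have hqc : q ∣ c := by
        rcases (Nat.prime_iff_prime_int.1 hq).dvd_mul.1 hd with h1 | h1
        · have h2 : ¬ q ∣ r.den := fun h3 => hq.one_lt.ne' (Nat.eq_one_of_dvd_coprimes
            r.reduced (Int.natCast_dvd.1 h1) h3)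
          exact (hq.dvd_mul.1 (hc ▸ hqz)).resolve_left h2
        · exact Int.natCast_dvd_natCast.1 h1
      obtain ⟨e, rfl⟩ := hqc
      exact ⟨e, by rw [← hc, mul_left_comm, Nat.mul_div_cancel_left _ hq.pos]⟩
    have h3 : z ∣ z / q := Nat.lcm_dvd (key x a hax (by simpa [hX] using h 0))
      (key y b hby (by simpa [hX] using h 1))
    have h4 : 0 < z / q := Nat.div_pos (Nat.le_of_dvd (Nat.pos_of_ne_zero hz0) hqz) hq.pos
    exact absurd (Nat.le_of_dvd h4 h3) (not_le.2 (Nat.div_lt_self (Nat.pos_of_ne_zero hz0)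
      hq.one_lt))
  · have e : ((v ⬝ᵥ mono X : ℤ) : ℚ) = ∑ i, (v i : ℚ) * mono (fun i => (X i : ℚ)) i := by
      simp [dotProduct, mono]
    rw [hvX, Int.cast_zero, hcast, mono_smul] at e
    simp only [Pi.smul_apply, smul_eq_mul, mul_left_comm _ ((z : ℚ) ^ 2), ← mul_sum] at e
    exact (mul_eq_zero.1 e.symm).resolve_left (pow_ne_zero _ (Nat.cast_ne_zero.2 hz0))

theorem conic_ne_zero {v : Fin 6 → ℤ}
    (h : ∀ x y : ℚ, conic v x y = 0) : v = 0 := by
  have h00 := h 0 0
  have h10 := h 1 0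
  have hm0 := h (-1) 0
  have h01 := h 0 1
  have h0m := h 0 (-1)
  have h11 := h 1 1
  simp [conic, mono, monoFst, monoSnd, Fin.sum_univ_six] at h00 h10 hm0 h01 h0m h11
  have h00' : (v 0 : ℚ) = 0 := by exact_mod_cast h00
  funext i
  refine Int.cast_injective (α := ℚ) ?_
  rw [Pi.zero_apply, Int.cast_zero]
  fin_cases i <;> first
    | linarith
    | (simp only [Fin.reduceFinMk, Fin.zero_eta, Fin.mk_one]; linarith)

theorem finite_of_card_le {α : Type*} {s : Set α} (N : ℕ)
    (h : ∀ t : Finset α, (t : Set α) ⊆ s → t.card ≤ N) : s.Finite := by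
  by_contra hinf
  obtain ⟨t, ht, htc⟩ := Set.Infinite.exists_subset_card_eq hinf (N + 1)
  have := h t ht
  omega

/-- An irreducible curve of degree at least three meets a conic in finitely many points. -/
theorem finite_conic_inter {f : MvPolynomial (Fin 2) ℤ}
    (hirr : Irreducible (f.map (Int.castRingHom ℚ))) (hdeg : 3 ≤ f.totalDegree)
    {v : Fin 6 → ℤ} (hv : v ≠ 0) :
    {P : ℚ × ℚ | MvPolynomial.aeval ![P.1, P.2] f = 0 ∧ conic v P.1 P.2 = 0}.Finite := by
  classical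
  set Q : MvPolynomial (Fin 2) ℚ := conic v (MvPolynomial.X 0) (MvPolynomial.X 1) with hQ
  have hev : ∀ x y : ℚ, MvPolynomial.eval ![x, y] Q = conic v x y := fun x y => by
    simp only [hQ, conic, map_sum, map_mul, map_intCast, map_mono]
    refine sum_congr rfl fun i _ => ?_
    rw [show (MvPolynomial.eval ![x, y] ∘ ![MvPolynomial.X 0, MvPolynomial.X 1, 1]) =
      ![x, y, 1] by funext j; fin_cases j <;> simp]
  have hQ0 : Q ≠ 0 := fun h => hv (conic_ne_zero fun x y => by rw [← hev, h, map_zero])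
  have hQd : Q.totalDegree ≤ 2 := by
    refine MvPolynomial.totalDegree_finsetSum_le fun i _ => ?_
    rw [← map_intCast (MvPolynomial.C : ℚ →+* MvPolynomial (Fin 2) ℚ)]
    refine (MvPolynomial.totalDegree_mul _ _).trans ?_
    rw [MvPolynomial.totalDegree_C, zero_add]
    refine (MvPolynomial.totalDegree_mul _ _).trans ?_
    have h1 : ∀ j : Fin 3, ((![MvPolynomial.X 0, MvPolynomial.X 1, 1] :
        Fin 3 → MvPolynomial (Fin 2) ℚ) j).totalDegree ≤ 1 := fun j => by
      fin_cases j <;> simp [MvPolynomial.totalDegree_X]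
    exact add_le_add (h1 _) (h1 _)
  have hfd : (f.map (Int.castRingHom ℚ)).totalDegree = f.totalDegree := by
    simp only [MvPolynomial.totalDegree,
      MvPolynomial.support_map_of_injective f (Int.castRingHom ℚ).injective_int]
  have hcop : IsRelPrime (f.map (Int.castRingHom ℚ)) Q :=
    hirr.isRelPrime_iff_not_dvd.2 fun ⟨c, hc⟩ => by
      have hc0 : c ≠ 0 := fun h => hQ0 (by rw [hc, h, mul_zero])
      rw [hc, MvPolynomial.totalDegree_mul_of_isDomain hirr.ne_zero hc0, hfd] at hQd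
      omega
  have hinj : Function.Injective fun P : ℚ × ℚ => ![P.1, P.2] := fun P P' h =>
    Prod.ext (congrFun h 0) (congrFun h 1)
  refine (Set.Finite.preimage hinj.injOn (s := {q | MvPolynomial.eval q
    (f.map (Int.castRingHom ℚ)) = 0 ∧ MvPolynomial.eval q Q = 0}) ?_).subset fun P hP => ?_
  · exact finite_of_card_le _ fun t ht =>
      BezoutCurves.card_common_zeros hcop t fun q hq => ht hq
  · refine ⟨?_, (hev _ _).trans hP.2⟩
    rw [MvPolynomial.eval_map]
    exact hP.1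

/-- **Siegel's theorem, `S`-integral**, for curves with simple points at infinity. -/
theorem finite_sIntegralZeros {f : MvPolynomial (Fin 2) ℤ}
    (hirr : Irreducible (f.map (Int.castRingHom ℚ))) (hdeg : 3 ≤ f.totalDegree)
    (hR : SimpleZeros (MvPolynomial.homogeneousComponent f.totalDegree f) ℝ) (S : Finset ℕ)
    (hS : ∀ q ∈ S, q.Prime) (hQ : ∀ q ∈ S, ∀ [Fact q.Prime],
      SimpleZeros (MvPolynomial.homogeneousComponent f.totalDegree f) ℚ_[q]) :
    (sIntegralZeros f S).Finite := by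
  obtain ⟨V, hV, hVx⟩ := exists_conics_zeros le_rfl hR S hS hQ
  refine ((Set.finite_mem_finset V).biUnion fun v hv =>
    finite_conic_inter hirr hdeg (hV v hv)).subset fun P hP => ?_
  obtain ⟨v, hv, hvP⟩ := hVx P hP
  exact Set.mem_biUnion hv ⟨hP.1, hvP⟩

/-- **Siegel's theorem** for the integer zeros: only the real asymptotic directions matter. -/
theorem finite_integralZeros {f : MvPolynomial (Fin 2) ℤ}
    (hirr : Irreducible (f.map (Int.castRingHom ℚ))) (hdeg : 3 ≤ f.totalDegree)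
    (hR : SimpleZeros (MvPolynomial.homogeneousComponent f.totalDegree f) ℝ) :
    {P : ℤ × ℤ | MvPolynomial.eval ![P.1, P.2] f = 0}.Finite := by
  have h := finite_sIntegralZeros hirr hdeg hR ∅ (fun q hq => absurd hq (notMem_empty q))
    (fun q hq => absurd hq (notMem_empty q))
  refine (h.preimage (f := fun P : ℤ × ℤ => ((P.1 : ℚ), (P.2 : ℚ)))
    (fun P _ P' _ he => Prod.ext (Int.cast_injective (congrArg Prod.fst he))
      (Int.cast_injective (congrArg Prod.snd he)))).subset fun P hP => ⟨?_, by simp, by simp⟩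
  show MvPolynomial.aeval ![(P.1 : ℚ), (P.2 : ℚ)] f = 0
  rw [show ![(P.1 : ℚ), (P.2 : ℚ)] = fun i => (Int.castRingHom ℚ).toIntAlgHom (![P.1, P.2] i) by
    funext i; fin_cases i <;> rfl, ← MvPolynomial.comp_aeval_apply, MvPolynomial.aeval_eq_eval,
    hP, map_zero]

end FA.AsymptoticDirections

end
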