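import Fermat.Agent.AsymptoticDirections.Basic
import Mathlib.Algebra.Polynomial.Identities
import Mathlib.Algebra.Polynomial.Taylor
import Mathlib.Analysis.Normed.Field.Lemmas
import Mathlib.Topology.Algebra.Polynomial
import Mathlib.LinearAlgebra.Matrix.NonsingularInverse

/-!
# Six small forms near a simple point at infinity

Near a point at infinity of the curve `f = 0` that is a simple zero of the top form, the six
monomials of degree two have six independent combinations with algebraic coefficients, the `j`-th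
vanishing to order `j` in the local parameter. By compactness finitely many systems serve all points
of the projective curve: the product of the six forms at `P` is at most `‖P 2‖ ^ 15 / ‖P‖ ^ 3`.
-/

set_option autoImplicit false
set_option linter.style.haveILetI false

noncomputable section

namespace FA.AsymptoticDirections

open Polynomial Finset Filter Topology Matrix

/-- A basis adapted to coefficient conditions. -/
theorem exists_flag {K : Type*} [Field K] {D : ℕ} (s : Fin D → K[X]) :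
    ∃ A : Matrix (Fin D) (Fin D) K, A.det ≠ 0 ∧
      ∀ j : Fin D, ∀ i < (j : ℕ), (∑ l, Polynomial.C (A j l) * s l).coeff i = 0 := by
  let T : ∀ j : ℕ, (Fin D → K) →ₗ[K] (Fin j → K) := fun j =>
    LinearMap.pi fun i => ∑ l, ((s l).coeff i) • LinearMap.proj l
  have hT : ∀ (j : ℕ) (a : Fin D → K) (i : Fin j),
      T j a i = (∑ l, Polynomial.C (a l) * s l).coeff i := fun j a i => by
    simp [T, Polynomial.finsetSum_coeff, mul_comm]
  suffices h : ∀ r ≤ D, ∃ e : Fin r → Fin D → K, LinearIndependent K e ∧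
      ∀ i : Fin r, T (D - r + i) (e i) = 0 by
    obtain ⟨e, he, hev⟩ := h D le_rfl
    refine ⟨Matrix.of e, ((Matrix.isUnit_iff_isUnit_det (Matrix.of e)).1
      (Matrix.linearIndependent_rows_iff_isUnit.1 he)).ne_zero, fun j i hi => ?_⟩
    have h1 := congrFun (hev j) ⟨i, by omega⟩
    rw [hT] at h1
    simpa using h1
  intro r
  induction r with
  | zero => exact fun _ => ⟨![], linearIndependent_empty_type, fun i => i.elim0⟩
  | succ r ih =>
    intro hr
    obtain ⟨e, he, hev⟩ := ih (by omega)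
    have hlt : ¬ LinearMap.ker (T (D - (r + 1))) ≤ Submodule.span K (Set.range e) := by
      intro hle
      have h1 := Submodule.finrank_mono hle
      rw [finrank_span_eq_card he, Fintype.card_fin] at h1
      have h2 := LinearMap.finrank_range_add_finrank_ker (T (D - (r + 1)))
      have h3 := Submodule.finrank_le (LinearMap.range (T (D - (r + 1))))
      rw [Module.finrank_fintype_fun_eq_card, Fintype.card_fin] at h2 h3
      omega
    obtain ⟨v, hv, hv'⟩ := SetLike.not_le_iff_exists.1 hlt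
    refine ⟨Fin.cons v e, linearIndependent_finCons.2 ⟨he, hv'⟩, Fin.cases ?_ fun i => ?_⟩
    · exact LinearMap.mem_ker.1 hv
    · rw [show D - (r + 1) + ((i.succ : Fin (r + 1)) : ℕ) = D - r + (i : ℕ) by
        rw [Fin.val_succ]; omega]
      simpa using hev i

/-- The truncated branch through a simple root. -/
theorem exists_branch {K : Type*} [Field K] (G : K[X][X]) {θ : K}
    (h0 : (G.map (evalRingHom 0)).eval θ = 0)
    (h1 : (G.map (evalRingHom 0)).derivative.eval θ ≠ 0) (m : ℕ) :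
    ∃ P : K[X], P.coeff 0 = θ ∧ X ^ (m + 1) ∣ G.eval P ∧
      (G.derivative.eval P).eval 0 ≠ 0 := by
  have hz : ∀ (H : K[X][X]) (P : K[X]),
      (H.eval P).eval 0 = (H.map (evalRingHom 0)).eval (P.eval 0) := fun H P => by
    rw [eval_map, ← coe_evalRingHom, ← eval₂_at_apply]
  suffices ∀ m, ∃ P : K[X], P.coeff 0 = θ ∧ X ^ (m + 1) ∣ G.eval P by
    obtain ⟨P, hP, hdvd⟩ := this m
    refine ⟨P, hP, hdvd, ?_⟩
    rw [hz, ← derivative_map, ← coeff_zero_eq_eval_zero, hP]
    exact h1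
  intro m
  induction m with
  | zero =>
    refine ⟨C θ, coeff_C_zero, ?_⟩
    rw [zero_add, pow_one, X_dvd_iff, coeff_zero_eq_eval_zero, hz, eval_C, h0]
  | succ m ih =>
    obtain ⟨P, hP, E, hE⟩ := ih
    set d := (G.derivative.eval P).eval 0 with hd
    have hd0 : d ≠ 0 := by
      rw [hd, hz, ← derivative_map, ← coeff_zero_eq_eval_zero, hP]
      exact h1
    set a := -E.eval 0 / d with ha
    refine ⟨P + C a * X ^ (m + 1), by simp [hP], ?_⟩
    obtain ⟨k, hk⟩ := binomExpansion G P (C a * X ^ (m + 1))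
    rw [hk, hE, show X ^ (m + 1) * E + G.derivative.eval P * (C a * X ^ (m + 1)) +
      k * (C a * X ^ (m + 1)) ^ 2 = X ^ (m + 1) * (E + C a * G.derivative.eval P +
        k * C a ^ 2 * X ^ (m + 1)) by ring, pow_succ (X : K[X]) (m + 1)]
    refine mul_dvd_mul_left _ (X_dvd_iff.2 ?_)
    rw [coeff_zero_eq_eval_zero]
    simp only [eval_add, eval_mul, eval_C, eval_pow, eval_X, ← hd, ha]
    rw [zero_pow (Nat.succ_ne_zero m), mul_zero, add_zero, div_mul_cancel₀ _ hd0, add_neg_cancel]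

variable {k : Type*} [NormedField k]

theorem eventually_norm_le {α : Type*} [TopologicalSpace α] {E : Type*}
    [SeminormedAddCommGroup E] {g : α → E} (hg : Continuous g) (x₀ : α) :
    ∀ᶠ x in 𝓝 x₀, ‖g x‖ ≤ ‖g x₀‖ + 1 :=
  (hg.norm.tendsto x₀).eventually_le_const (lt_add_one _)

theorem norm_mono_sub_le (P Q : Fin 3 → k) (i : Fin 6) :
    ‖mono P i - mono Q i‖ ≤ (‖P‖ + ‖Q‖) * ‖P - Q‖ := by
  rw [show mono P i - mono Q i = (P - Q) (monoFst i) * P (monoSnd i) +
    Q (monoFst i) * (P - Q) (monoSnd i) by simp only [mono, Pi.sub_apply]; ring]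
  refine (norm_add_le _ _).trans ?_
  rw [norm_mul, norm_mul, add_mul]
  refine add_le_add ?_ ?_
  · rw [mul_comm ‖P‖]
    exact mul_le_mul (norm_le_pi_norm (P - Q) _) (norm_le_pi_norm P _) (norm_nonneg _)
      (norm_nonneg _)
  · exact mul_le_mul (norm_le_pi_norm Q _) (norm_le_pi_norm (P - Q) _) (norm_nonneg _)
      (norm_nonneg _)

theorem norm_chart_sub_le (u : Fin 2) (t w v : k) :
    ‖chart u t w - chart u t v‖ ≤ ‖w - v‖ := by
  refine (pi_norm_le_iff_of_nonneg (norm_nonneg _)).2 fun i => ?_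
  fin_cases u <;> fin_cases i <;> simp [chart]

theorem continuous_chart (u : Fin 2) : Continuous fun q : k × k => chart u q.1 q.2 := by
  refine continuous_pi fun i => ?_
  fin_cases u <;> fin_cases i <;> simp [chart] <;> fun_prop

/-- **Six small forms in a chart.** -/
theorem exists_forms_chart {K : Type*} [Field K] (ι : K →+* k) (f : MvPolynomial (Fin 2) ℤ)
    (n : ℕ) (u : Fin 2) {θ : K} (h0 : hev f n (chart u 0 θ) = 0)
    (h1 : (Polynomial.derivative (hev f n (chart u 0 (X : K[X])))).eval θ ≠ 0) :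
    ∃ A : Matrix (Fin 6) (Fin 6) K, A.det ≠ 0 ∧ ∃ C : ℝ, ∀ᶠ q : k × k in 𝓝 (0, ι θ),
      hev f n (chart u q.1 q.2) = 0 → ∀ j : Fin 6,
        ‖∑ l, ι (A j l) * mono (chart u q.1 q.2) l‖ ≤ C * ‖q.1‖ ^ (j : ℕ) := by
  classical
  set G : K[X][X] := hev f n (chart u (Polynomial.C X) X) with hG
  have hG0 : G.map (evalRingHom 0) = hev f n (chart u 0 X) := by
    rw [hG, ← coe_mapRingHom, map_hev, map_chart]
    simp
  have hGe : ∀ P : K[X], G.eval P = hev f n (chart u X P) := fun P => by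
    rw [hG, ← coe_evalRingHom, map_hev, map_chart]
    simp
  obtain ⟨P, hP0, ⟨E, hE⟩, hd⟩ := exists_branch G (θ := θ) (by
    rw [hG0, ← coe_evalRingHom, map_hev, map_chart]
    simpa using h0) (by rwa [hG0]) 5
  obtain ⟨A, hA, hAflag⟩ := exists_flag (fun l => mono (chart u X P) l)
  have hR : ∀ j : Fin 6, ∃ R, ∑ l, Polynomial.C (A j l) * mono (chart u X P) l =
      X ^ (j : ℕ) * R := fun j => X_pow_dvd_iff.2 (hAflag j)
  choose R hR using hR
  let ev : k → K[X] →+* k := fun t => eval₂RingHom ι t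
  have hcont : ∀ p : K[X], Continuous fun t : k => ev t p := fun p => by
    simpa [ev, ← eval_map] using (p.map ι).continuous
  set S := (taylor P G).divX with hS
  let Sv : k × k → k := fun q =>
    ∑ i ∈ range (S.natDegree + 1), ev q.1 (S.coeff i) * (q.2 - ev q.1 P) ^ i
  have hSc : Continuous Sv := continuous_finsetSum _ fun i _ =>
    ((hcont _).comp continuous_fst).mul
      ((continuous_snd.sub ((hcont _).comp continuous_fst)).pow i)
  have hSeq : ∀ t w : k, hev f n (chart u t w) =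
      Sv (t, w) * (w - ev t P) + t ^ 6 * ev t E := fun t w => by
    have e1 : hev f n (chart u t w) = eval₂ (ev t) (w - ev t P) (taylor P G) := by
      rw [taylor_apply, eval₂_comp]
      simp only [eval₂_add, eval₂_X, eval₂_C, sub_add_cancel]
      rw [hG, ← coe_eval₂RingHom, map_hev, map_chart]
      simp [ev]
    have e3 : eval₂ (ev t) (w - ev t P) S = Sv (t, w) := eval₂_eq_sum_range _ _
    have e2 : ev t (G.eval P) = t ^ 6 * ev t E := by rw [hE]; simp [ev]
    rw [e1, ← divX_mul_X_add (taylor P G), eval₂_add, eval₂_mul, eval₂_X, eval₂_C,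
      taylor_coeff_zero, e2, ← hS, e3]
  have hP0' : ev 0 P = ι θ := by simp [ev, eval₂_at_zero, hP0]
  have hS0 : Sv (0, ι θ) ≠ 0 := by
    have e : Sv (0, ι θ) = ι ((G.derivative.eval P).eval 0) := by
      simp only [Sv, hP0', sub_self]
      rw [sum_range_succ', sum_eq_zero (fun i _ => by simp), zero_add, pow_zero, mul_one,
        hS, coeff_divX, zero_add, taylor_coeff_one]
      simp [ev, eval₂_at_zero, coeff_zero_eq_eval_zero]
    rw [e]
    exact (map_ne_zero_iff _ ι.injective).2 hd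
  set dlt := ‖Sv (0, ι θ)‖ / 2 with hdlt
  have hdlt0 : 0 < dlt := by have := norm_pos_iff.2 hS0; rw [hdlt]; linarith
  have hcE : Continuous fun q : k × k => ev q.1 E := (hcont E).comp continuous_fst
  have hc1 : Continuous fun q : k × k => chart u q.1 q.2 := continuous_chart u
  have hc2 : Continuous fun q : k × k => chart u q.1 (ev q.1 P) :=
    (continuous_chart u).comp (continuous_fst.prodMk ((hcont P).comp continuous_fst))
  have hcR : Continuous fun q : k × k => fun j => ev q.1 (R j) :=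
    continuous_pi fun j => (hcont (R j)).comp continuous_fst
  set bE := ‖ev (0 : k) E‖ + 1
  set bM := ‖chart u (0 : k) (ι θ)‖ + 1 + (‖chart u (0 : k) (ev 0 P)‖ + 1)
  set bR := ‖fun j : Fin 6 => ev (0 : k) (R j)‖ + 1
  refine ⟨A, hA, (∑ j, ∑ l, ‖ι (A j l)‖) * bM * (bE / dlt) + bR, ?_⟩
  have hev1 : ∀ᶠ q : k × k in 𝓝 (0, ι θ), dlt < ‖Sv q‖ :=
    (hSc.norm.tendsto _).eventually_const_lt (by rw [hdlt]; linarith [norm_pos_iff.2 hS0])
  have hev2 : ∀ᶠ q : k × k in 𝓝 (0, ι θ), ‖q.1‖ ≤ 1 :=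
    (continuous_fst.norm.tendsto _).eventually_le_const (by simp)
  filter_upwards [hev1, hev2, eventually_norm_le hcE _, eventually_norm_le hc1 _,
    eventually_norm_le hc2 _, eventually_norm_le hcR _] with q hq1 hq2 hqE hqc hqP hqR
  intro hq j
  obtain ⟨t, w⟩ := q
  simp only at hq1 hq2 hqE hqc hqP hqR hq ⊢
  have hh : ‖w - ev t P‖ ≤ bE / dlt * ‖t‖ ^ 6 := by
    rw [hSeq, add_eq_zero_iff_eq_neg] at hq
    have e := congrArg (fun x : k => ‖x‖) hq
    simp only [norm_mul, norm_neg, norm_pow] at e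
    have h2 : dlt * ‖w - ev t P‖ ≤ ‖t‖ ^ 6 * bE :=
      ((mul_le_mul_of_nonneg_right hq1.le (norm_nonneg _)).trans_eq e).trans
        (mul_le_mul_of_nonneg_left hqE (by positivity))
    rw [div_mul_eq_mul_div, le_div_iff₀ hdlt0]
    linarith
  have hsplit : ∑ l, ι (A j l) * mono (chart u t w) l =
      ∑ l, ι (A j l) * (mono (chart u t w) l - mono (chart u t (ev t P)) l) +
        t ^ (j : ℕ) * ev t (R j) := by
    have e := congrArg (ev t) (hR j)
    simp only [map_sum, map_mul, map_pow, map_mono, map_chart] at e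
    simp only [ev, coe_eval₂RingHom, eval₂_C, eval₂_X] at e
    simp only [mul_sub, sum_sub_distrib]
    rw [show ev t (R j) = eval₂ ι t (R j) from rfl, ← e]
    simp [ev]
  have hpow : ‖t‖ ^ 6 ≤ ‖t‖ ^ (j : ℕ) :=
    pow_le_pow_of_le_one (norm_nonneg _) hq2 (by omega)
  rw [hsplit, add_mul]
  refine (norm_add_le _ _).trans (add_le_add ?_ ?_)
  · refine (norm_sum_le _ _).trans ?_
    have hb : ∀ l, ‖ι (A j l) * (mono (chart u t w) l - mono (chart u t (ev t P)) l)‖ ≤
        ‖ι (A j l)‖ * (bM * (bE / dlt * ‖t‖ ^ (j : ℕ))) := fun l => by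
      rw [norm_mul]
      refine mul_le_mul_of_nonneg_left ((norm_mono_sub_le _ _ _).trans ?_) (norm_nonneg _)
      exact mul_le_mul (add_le_add hqc hqP)
        (((norm_chart_sub_le u t _ _).trans hh).trans
          (mul_le_mul_of_nonneg_left hpow (by positivity))) (norm_nonneg _) (by positivity)
    refine (sum_le_sum fun l _ => hb l).trans ?_
    rw [← sum_mul]
    refine le_of_le_of_eq (mul_le_mul_of_nonneg_right
      (single_le_sum (f := fun j => ∑ l, ‖ι (A j l)‖) (fun i _ => by positivity) (mem_univ j))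
      (by positivity)) (by ring)
  · rw [norm_mul, norm_pow, mul_comm]
    exact mul_le_mul_of_nonneg_right
      ((norm_le_pi_norm (fun j => ev t (R j)) j).trans hqR) (by positivity)

/-- Six forms at a point of the unit sphere. -/
theorem exists_forms_point [CharZero k] {f : MvPolynomial (Fin 2) ℤ} {n : ℕ}
    (hf : f.totalDegree ≤ n) (hs : SimpleZeros (MvPolynomial.homogeneousComponent n f) k)
    {P₀ : Fin 3 → k} (hP₀ : P₀ ≠ 0) :
    ∃ A : Matrix (Fin 6) (Fin 6) k, A.det ≠ 0 ∧ (∀ i j, IsAlgebraic ℚ (A i j)) ∧ ∃ C : ℝ,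
      ∀ᶠ P in 𝓝 P₀, hev f n P = 0 →
        ∏ j, ‖∑ l, A j l * mono P l‖ ≤ C * ‖P 2‖ ^ 15 := by
  classical
  have hone : (∀ i j, IsAlgebraic ℚ ((1 : Matrix (Fin 6) (Fin 6) k) i j)) := fun i j => by
    by_cases h : i = j
    · subst h
      rw [Matrix.one_apply_eq]
      exact isAlgebraic_one
    · simpa [Matrix.one_apply_ne h] using (isAlgebraic_zero : IsAlgebraic ℚ (0 : k))
  by_cases hF : hev f n P₀ ≠ 0
  · refine ⟨1, by simp, hone, 0, ?_⟩
    have hc : Continuous fun P : Fin 3 → k => hev f n P := by unfold hev; fun_prop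
    filter_upwards [hc.continuousAt.eventually_ne hF] with P hP h
    exact absurd h hP
  by_cases hz : P₀ 2 ≠ 0
  · have hc : Continuous fun P : Fin 3 → k => ∏ j, ∑ l, (1 : Matrix (Fin 6) (Fin 6) k) j l *
        mono P l := by
      unfold mono
      fun_prop
    have hlow : ∀ᶠ P in 𝓝 P₀, ‖P₀ 2‖ / 2 < ‖P 2‖ :=
      ((continuous_apply (2 : Fin 3)).norm.tendsto P₀).eventually_const_lt
        (by linarith [norm_pos_iff.2 hz])
    refine ⟨1, by simp, hone,
      (‖∏ j, ∑ l, (1 : Matrix (Fin 6) (Fin 6) k) j l * mono P₀ l‖ + 1) /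
        (‖P₀ 2‖ / 2) ^ 15, ?_⟩
    filter_upwards [hlow, eventually_norm_le hc _] with P hP hle _
    rw [← norm_prod]
    have hpos : 0 < (‖P₀ 2‖ / 2) ^ 15 := by
      have := norm_pos_iff.2 hz
      positivity
    refine hle.trans ?_
    rw [div_mul_eq_mul_div, le_div_iff₀ hpos]
    exact mul_le_mul_of_nonneg_left
      (pow_le_pow_left₀ (by positivity) hP.le 15) (by positivity)
  push Not at hF hz
  obtain ⟨u, hu⟩ : ∃ u : Fin 2, P₀ u.castSucc ≠ 0 := by
    by_contra! h
    refine hP₀ (funext fun i => ?_)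
    fin_cases i
    exacts [h 0, h 1, hz]
  set θ := P₀ (1 - u).castSucc / P₀ u.castSucc with hθ
  have hchart : hev f n (chart u 0 θ) = 0 := by
    have e := eq_smul_chart P₀ u hu
    rw [hz, zero_div] at e
    rw [e, hev_smul hf] at hF
    exact (mul_eq_zero.1 hF).resolve_left (pow_ne_zero _ hu)
  have hder : (Polynomial.derivative (hev f n (chart u 0 (X : k[X])))).eval θ ≠ 0 := by
    rw [hev_chart_zero hf]
    convert derivative_ne_zero (MvPolynomial.homogeneousComponent_isHomogeneous n f) hs u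
      (θ := θ) (by rw [← hev_chart_zero hf, hchart]) using 6
    all_goals rfl
  have hθalg : IsAlgebraic ℚ θ := by
    set p : ℤ[X] := hev f n (chart u 0 X) with hp
    have hmap : p.map (Int.castRingHom k) = hev f n (chart u 0 X) := by
      rw [hp, ← coe_mapRingHom, map_hev, map_chart]
      simp
    have hne : p ≠ 0 := fun h => by
      rw [h, Polynomial.map_zero] at hmap
      rw [← hmap] at hder
      simp at hder
    refine IsAlgebraic.extendScalars (R := ℤ) Int.cast_injective ⟨p, hne, ?_⟩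
    rw [aeval_def, show algebraMap ℤ k = Int.castRingHom k from rfl, ← eval_map, hmap,
      ← coe_evalRingHom, map_hev, map_chart]
    simpa using hchart
  set K := algebraicClosure ℚ k
  obtain ⟨A, hA, C, hC⟩ := exists_forms_chart (k := k) (K.val : K →+* k) f n u
    (θ := ⟨θ, mem_algebraicClosure_iff.2 hθalg⟩) (K.val.toRingHom.injective (by
      rw [map_hev, map_chart, map_zero]
      exact hchart)) (fun h => hder (by
      have e := congrArg K.val.toRingHom h
      rw [map_zero, ← eval₂_at_apply, ← eval_map, ← derivative_map, ← coe_mapRingHom, map_hev,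
        map_chart] at e
      simp only [coe_mapRingHom, Polynomial.map_X, Polynomial.map_zero] at e
      exact e))
  refine ⟨A.map K.val, ?_, fun i j => mem_algebraicClosure_iff.1 (A i j).2, ?_⟩
  · rw [← AlgHom.mapMatrix_apply, ← AlgHom.map_det]
    exact (map_ne_zero_iff _ K.val.injective).2 hA
  have hchc : ContinuousAt (fun P : Fin 3 → k =>
      (P 2 / P u.castSucc, P (1 - u).castSucc / P u.castSucc)) P₀ := by fun_prop (disch := exact hu)
  have hev3 := hchc.tendsto.eventually (by simpa [hz, hθ] using hC)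
  have hlow : ∀ᶠ P in 𝓝 P₀, ‖P₀ u.castSucc‖ / 2 < ‖P u.castSucc‖ :=
    ((continuous_apply u.castSucc).norm.tendsto P₀).eventually_const_lt
      (by linarith [norm_pos_iff.2 hu])
  set C' := max C 0
  refine ⟨C' ^ 6 / (‖P₀ u.castSucc‖ / 2) ^ 3, ?_⟩
  filter_upwards [hev3, hlow] with P hP hlo h
  have hpos : 0 < ‖P₀ u.castSucc‖ / 2 := by linarith [norm_pos_iff.2 hu]
  have hu' : P u.castSucc ≠ 0 := norm_pos_iff.1 (hpos.trans hlo)
  set c := P u.castSucc with hc
  set t := P 2 / c with ht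
  set w := P (1 - u).castSucc / c with hw
  have e := eq_smul_chart P u hu'
  have h' : hev f n (chart u t w) = 0 := by
    rw [e, hev_smul hf] at h
    exact (mul_eq_zero.1 h).resolve_left (pow_ne_zero _ hu')
  have hb : ∀ j : Fin 6, ‖∑ l, A.map K.val j l * mono P l‖ ≤
      ‖c‖ ^ 2 * (C' * ‖t‖ ^ (j : ℕ)) := fun j => by
    rw [e, mono_smul]
    simp only [Pi.smul_apply, smul_eq_mul, mul_left_comm _ ((P u.castSucc) ^ 2), ← mul_sum,
      norm_mul, norm_pow, Matrix.map_apply]
    exact mul_le_mul_of_nonneg_left ((hP h' j).trans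
      (mul_le_mul_of_nonneg_right (le_max_left _ _) (by positivity))) (by positivity)
  refine (prod_le_prod (fun j _ => norm_nonneg _) fun j _ => hb j).trans ?_
  have hP2 : ‖P 2‖ = ‖t‖ * ‖c‖ := by rw [← norm_mul, ht, div_mul_cancel₀ _ hu']
  have hprod : ∏ j : Fin 6, ‖c‖ ^ 2 * (C' * ‖t‖ ^ (j : ℕ)) =
      C' ^ 6 * (‖c‖ ^ 12 * ‖t‖ ^ 15) := by
    simp only [Fin.prod_univ_six]
    simp only [show ((0 : Fin 6) : ℕ) = 0 from rfl, show ((1 : Fin 6) : ℕ) = 1 from rfl,
      show ((2 : Fin 6) : ℕ) = 2 from rfl, show ((3 : Fin 6) : ℕ) = 3 from rfl,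
      show ((4 : Fin 6) : ℕ) = 4 from rfl, show ((5 : Fin 6) : ℕ) = 5 from rfl]
    ring
  rw [hprod, hP2, mul_pow, div_mul_eq_mul_div, le_div_iff₀ (pow_pos hpos 3)]
  calc C' ^ 6 * (‖c‖ ^ 12 * ‖t‖ ^ 15) * (‖P₀ u.castSucc‖ / 2) ^ 3
      ≤ C' ^ 6 * (‖c‖ ^ 12 * ‖t‖ ^ 15) * ‖c‖ ^ 3 := by gcongr
    _ = C' ^ 6 * (‖t‖ ^ 15 * ‖c‖ ^ 15) := by ring

/-- **Finitely many systems of six small forms serve the whole curve.** -/
theorem exists_forms [CharZero k] [ProperSpace k] {f : MvPolynomial (Fin 2) ℤ} {n : ℕ}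
    (hf : f.totalDegree ≤ n) (hs : SimpleZeros (MvPolynomial.homogeneousComponent n f) k) :
    ∃ (T : Finset (Matrix (Fin 6) (Fin 6) k)) (C : ℝ), 0 ≤ C ∧
      (∀ A ∈ T, A.det ≠ 0 ∧ ∀ i j, IsAlgebraic ℚ (A i j)) ∧
      ∀ P : Fin 3 → k, P ≠ 0 → hev f n P = 0 →
        ∃ A ∈ T, ∏ j, ‖∑ l, A j l * mono P l‖ ≤ C * (‖P 2‖ ^ 15 / ‖P‖ ^ 3) := by
  classical
  have hloc : ∀ P₀ : Metric.sphere (0 : Fin 3 → k) 1, ∃ A : Matrix (Fin 6) (Fin 6) k,
      A.det ≠ 0 ∧ (∀ i j, IsAlgebraic ℚ (A i j)) ∧ ∃ C : ℝ, ∀ᶠ P in 𝓝 (P₀ : Fin 3 → k),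
        hev f n P = 0 → ∏ j, ‖∑ l, A j l * mono P l‖ ≤ C * ‖P 2‖ ^ 15 := fun P₀ =>
    exists_forms_point hf hs (fun h => by simpa [h] using P₀.2)
  choose A hA halg C hC using hloc
  obtain ⟨I, hI⟩ := (isCompact_sphere (0 : Fin 3 → k) 1).elim_nhds_subcover'
    (fun x hx => {P | hev f n P = 0 →
      ∏ j, ‖∑ l, A ⟨x, hx⟩ j l * mono P l‖ ≤ C ⟨x, hx⟩ * ‖P 2‖ ^ 15})
    (fun x hx => hC ⟨x, hx⟩)
  refine ⟨I.image A, ∑ x ∈ I, |C x|, sum_nonneg fun _ _ => abs_nonneg _, ?_, fun P hP h => ?_⟩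
  · rintro _ hB
    obtain ⟨x, -, rfl⟩ := mem_image.1 hB
    exact ⟨hA x, halg x⟩
  obtain ⟨i₀, hi₀⟩ := Finite.exists_max fun i => ‖P i‖
  have hnorm : ‖P‖ = ‖P i₀‖ :=
    le_antisymm ((pi_norm_le_iff_of_nonneg (norm_nonneg _)).2 hi₀) (norm_le_pi_norm P i₀)
  have hPn : 0 < ‖P‖ := norm_pos_iff.2 hP
  have hc : P i₀ ≠ 0 := norm_pos_iff.1 (hnorm ▸ hPn)
  set Q := (P i₀)⁻¹ • P with hQ
  have hQs : Q ∈ Metric.sphere (0 : Fin 3 → k) 1 := by
    rw [mem_sphere_zero_iff_norm, hQ, norm_smul, norm_inv, ← hnorm, inv_mul_cancel₀ hPn.ne']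
  have hQz : hev f n Q = 0 := by rw [hQ, hev_smul hf, h, mul_zero]
  simp only [Set.mem_iUnion, Set.subset_def] at hI
  obtain ⟨x, hx, hxQ⟩ := hI Q hQs
  refine ⟨A x, mem_image_of_mem _ hx, ?_⟩
  have hb := (hxQ hQz).trans (mul_le_mul_of_nonneg_right ((le_abs_self _).trans
    (single_le_sum (f := fun x => |C x|) (fun _ _ => abs_nonneg _) hx))
      (by positivity : 0 ≤ ‖Q 2‖ ^ 15))
  have e : ∀ j, ‖∑ l, A x j l * mono Q l‖ = (‖P‖⁻¹) ^ 2 * ‖∑ l, A x j l * mono P l‖ :=
    fun j => by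
      rw [hQ, mono_smul, hnorm]
      simp only [Pi.smul_apply, smul_eq_mul, mul_left_comm _ ((P i₀)⁻¹ ^ 2), ← mul_sum, norm_mul,
        norm_pow, norm_inv]
  simp only [e, prod_mul_distrib, prod_const, card_univ, Fintype.card_fin] at hb
  have e2 : ‖Q 2‖ = ‖P‖⁻¹ * ‖P 2‖ := by
    rw [hQ, hnorm, Pi.smul_apply, smul_eq_mul, norm_mul, norm_inv]
  rw [e2] at hb
  field_simp at hb ⊢
  linarith

end FA.AsymptoticDirections

end
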