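import Fermat.Agent.AsymptoticDirections.Global
import Mathlib.RingTheory.Polynomial.GaussLemma
import Mathlib.FieldTheory.Separable

/-!
# Thue equations with a lower degree right-hand side

For an irreducible form `F` of degree `d` and `G` of lower degree the curve `F = G` is irreducible
with simple points at infinity, as the top form of a factor divides `F`.
-/

set_option autoImplicit false
set_option linter.style.haveILetI false

noncomputable section

namespace FA.AsymptoticDirections

open MvPolynomial Finset

theorem component_top_mul {σ R : Type*} [CommRing R] {g h : MvPolynomial σ R} {a b : ℕ}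
    (hg : g.totalDegree ≤ a) (hh : h.totalDegree ≤ b) :
    homogeneousComponent (a + b) (g * h) =
      homogeneousComponent a g * homogeneousComponent b h := by
  classical
  ext d
  by_cases hd : d.degree = a + b
  · rw [coeff_homogeneousComponent, if_pos hd, coeff_mul, coeff_mul]
    refine sum_congr rfl fun x hx => ?_
    have hx' : x.1.degree + x.2.degree = a + b := by
      rw [← map_add, mem_antidiagonal.1 hx, hd]
    simp only [coeff_homogeneousComponent]
    by_cases h1 : g.coeff x.1 = 0
    · simp [h1]
    by_cases h2 : h.coeff x.2 = 0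
    · simp [h2]
    have e1 : x.1.degree ≤ a := (le_totalDegree (mem_support_iff.2 h1)).trans hg
    have e2 : x.2.degree ≤ b := (le_totalDegree (mem_support_iff.2 h2)).trans hh
    rw [if_pos (by omega), if_pos (by omega)]
  · rw [coeff_homogeneousComponent, if_neg hd,
      ((homogeneousComponent_isHomogeneous a g).mul
        (homogeneousComponent_isHomogeneous b h)).coeff_eq_zero hd]

theorem natDegree_aeval_pair_le {R : Type*} [CommRing R] [Nontrivial R]
    {g : MvPolynomial (Fin 2) R} {a : ℕ} (hg : g.IsHomogeneous a) :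
    (aeval ![(Polynomial.X : Polynomial R), 1] g).natDegree ≤ a := by
  rw [aeval_def, eval₂_eq']
  refine Polynomial.natDegree_sum_le_of_forall_le _ _ fun d hd => ?_
  have h := hg.degree_eq_sum_deg_support hd
  rw [Fin.prod_univ_two]
  simp only [Matrix.cons_val_zero, Matrix.cons_val_one, one_pow, mul_one,
    Polynomial.algebraMap_eq]
  refine (Polynomial.natDegree_C_mul_le _ _).trans ?_
  rw [Polynomial.natDegree_X_pow, h, sum_subset (subset_univ _) (fun i _ hi => by simpa using hi),
    Fin.sum_univ_two]
  omega

/-- A polynomial whose top form is irreducible is irreducible. -/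
theorem irreducible_of_top {f : MvPolynomial (Fin 2) ℚ} {n : ℕ} (hn : f.totalDegree = n)
    (hirr : Irreducible (aeval ![(Polynomial.X : Polynomial ℚ), 1] (homogeneousComponent n f)))
    (hdeg : (aeval ![(Polynomial.X : Polynomial ℚ), 1] (homogeneousComponent n f)).natDegree = n) :
    Irreducible f := by
  have hn0 : 0 < n := hdeg ▸ hirr.natDegree_pos
  have hf0 : f ≠ 0 := fun h => by rw [h, totalDegree_zero] at hn; omega
  refine irreducible_iff.2 ⟨fun hu => ?_, fun g h hgh => ?_⟩
  · obtain ⟨c, -, rfl⟩ := isUnit_iff_eq_C_of_isReduced.1 hu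
    rw [totalDegree_C] at hn
    omega
  have hg0 : g ≠ 0 := fun e => hf0 (by rw [hgh, e, zero_mul])
  have hh0 : h ≠ 0 := fun e => hf0 (by rw [hgh, e, mul_zero])
  have hsum : g.totalDegree + h.totalDegree = n := by
    rw [← hn, hgh, totalDegree_mul_of_isDomain hg0 hh0]
  rw [hgh, ← hsum, component_top_mul le_rfl le_rfl, map_mul] at hirr hdeg
  have hcases : ∀ q : MvPolynomial (Fin 2) ℚ, q ≠ 0 → q.totalDegree = 0 → IsUnit q :=
    fun q hq h0 => by
      rw [totalDegree_eq_zero_iff_eq_C.1 h0] at hq ⊢
      exact (isUnit_iff_ne_zero.2 fun e => hq (by rw [e, map_zero])).map _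
  have h1 := natDegree_aeval_pair_le (homogeneousComponent_isHomogeneous g.totalDegree g)
  have h2 := natDegree_aeval_pair_le (homogeneousComponent_isHomogeneous h.totalDegree h)
  have hne := mul_ne_zero_iff.1 hirr.ne_zero
  rw [Polynomial.natDegree_mul hne.1 hne.2] at hdeg
  rcases hirr.isUnit_or_isUnit rfl with hu | hu
  · have := Polynomial.natDegree_eq_zero_of_isUnit hu
    exact Or.inl (hcases g hg0 (by omega))
  · have := Polynomial.natDegree_eq_zero_of_isUnit hu
    exact Or.inr (hcases h hh0 (by omega))

/-- The binary form `Σ aᵢ X ^ i Y ^ (d - i)` of a polynomial of degree `d`. -/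
def formOf (f : Polynomial ℤ) : MvPolynomial (Fin 2) ℤ :=
  ∑ i ∈ range (f.natDegree + 1), C (f.coeff i) * X 0 ^ i * X 1 ^ (f.natDegree - i)

theorem formOf_isHomogeneous (f : Polynomial ℤ) : (formOf f).IsHomogeneous f.natDegree := by
  refine IsHomogeneous.sum _ _ _ fun i hi => ?_
  have h := ((isHomogeneous_C _ (f.coeff i)).mul (isHomogeneous_X_pow (R := ℤ) (0 : Fin 2) i)).mul
    (isHomogeneous_X_pow (R := ℤ) (1 : Fin 2) (f.natDegree - i))
  rw [zero_add, Nat.add_sub_cancel' (Nat.lt_succ_iff.1 (mem_range.1 hi))] at h
  exact h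

theorem aeval_formOf {R : Type*} [CommRing R] (f : Polynomial ℤ) (v : Fin 2 → R) :
    aeval v (formOf f) =
      ∑ i ∈ range (f.natDegree + 1), (f.coeff i : R) * v 0 ^ i * v 1 ^ (f.natDegree - i) := by
  simp [formOf, map_sum]

theorem aeval_formOf_one {R : Type*} [CommRing R] (f : Polynomial ℤ) (w : R) :
    aeval ![w, 1] (formOf f) = Polynomial.aeval w f := by
  rw [aeval_formOf, Polynomial.aeval_eq_sum_range]
  simp [zsmul_eq_mul]

theorem aeval_smul_point {F : MvPolynomial (Fin 2) ℤ} {n : ℕ} (hF : F.IsHomogeneous n)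
    {R : Type*} [CommRing R] (c : R) (v : Fin 2 → R) : aeval (c • v) F = c ^ n * aeval v F := by
  rw [aeval_def, eval₂_eq', aeval_def, eval₂_eq', mul_sum]
  refine sum_congr rfl fun d hd => ?_
  have h := hF.degree_eq_sum_deg_support hd
  rw [sum_subset (subset_univ _) (fun i _ hi => by simpa using hi), Fin.sum_univ_two] at h
  simp only [Fin.prod_univ_two, Pi.smul_apply, smul_eq_mul, mul_pow, h, pow_add]
  ring

theorem separable_map_of_irreducible {f : Polynomial ℤ} (hf : Irreducible f)
    (hd : f.natDegree ≠ 0) :
    Irreducible (f.map (algebraMap ℤ ℚ)) ∧ (f.map (algebraMap ℤ ℚ)).Separable := by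
  have h := (Polynomial.IsPrimitive.Int.irreducible_iff_irreducible_map_cast
    (hf.isPrimitive hd)).1 hf
  exact ⟨h, h.separable⟩

/-- An irreducible form has only simple zeros. -/
theorem simpleZeros_formOf {f : Polynomial ℤ} (hf : Irreducible f) (hd : f.natDegree ≠ 0)
    (k : Type*) [Field k] [CharZero k] : SimpleZeros (formOf f) k := by
  intro v hv h0
  by_cases h1 : v 1 = 0
  · exfalso
    rw [aeval_formOf, sum_range_succ, sum_eq_zero (fun i hi => by
      rw [h1, zero_pow (Nat.sub_ne_zero_of_lt (mem_range.1 hi)), mul_zero]), zero_add,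
      Nat.sub_self, pow_zero, mul_one, mul_eq_zero] at h0
    rcases h0 with h0 | h0
    · exact Polynomial.leadingCoeff_ne_zero.2 hf.ne_zero (Int.cast_eq_zero.1 h0)
    · exact hv (funext fun i => by fin_cases i <;> simp [eq_zero_of_pow_eq_zero h0, h1])
  set w := v 0 / v 1
  have hv' : v = v 1 • ![w, 1] := by
    funext i
    fin_cases i <;> simp [w, mul_div_cancel₀ _ h1]
  rw [hv', aeval_smul_point (formOf_isHomogeneous f), mul_eq_zero, aeval_formOf_one] at h0
  have hw := h0.resolve_left (pow_ne_zero _ h1)
  have hd' : Polynomial.aeval w (Polynomial.derivative f) ≠ 0 := by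
    have hsep := (separable_map_of_irreducible hf hd).2
    have := hsep.aeval_derivative_ne_zero (S := k) (x := w) (by
      rwa [Polynomial.aeval_map_algebraMap])
    rwa [Polynomial.derivative_map, Polynomial.aeval_map_algebraMap] at this
  refine ⟨0, ?_⟩
  rw [hv', aeval_smul_point ((formOf_isHomogeneous f).pderiv), mul_ne_zero_iff]
  refine ⟨pow_ne_zero _ h1, ?_⟩
  have e : Polynomial.aeval w (Polynomial.derivative f) =
      aeval ![w, 1] (pderiv 0 (formOf f)) := by
    conv_lhs => rw [f.as_sum_range_C_mul_X_pow]
    simp only [formOf, map_sum]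
    refine sum_congr rfl fun i _ => ?_
    simp [pderiv_X, Polynomial.derivative_X_pow, mul_comm, mul_assoc]
  rwa [← e]

/-- **`F = G` with `deg G < deg F` and `F` irreducible**: finitely many `S`-integral solutions. -/
theorem finite_thue {f : Polynomial ℤ} (hf : Irreducible f) (hd : 3 ≤ f.natDegree)
    {G : MvPolynomial (Fin 2) ℤ} (hG : G.totalDegree < f.natDegree) (S : Finset ℕ)
    (hS : ∀ q ∈ S, q.Prime) :
    (sIntegralZeros (formOf f - G) S).Finite ∧
      {P : ℤ × ℤ | MvPolynomial.eval ![P.1, P.2] (formOf f) =
        MvPolynomial.eval ![P.1, P.2] G}.Finite := by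
  set d := f.natDegree with hdd
  have hd0 : d ≠ 0 := by omega
  have htop : homogeneousComponent d (formOf f - G) = formOf f := by
    rw [map_sub, homogeneousComponent_eq_zero d G hG, sub_zero,
      homogeneousComponent_eq_self (formOf_isHomogeneous f)]
  have hF0 : formOf f ≠ 0 :=
    (simpleZeros_formOf hf hd0 ℝ).homogeneousComponent_ne_zero
  have hFd : (formOf f).totalDegree = d := (formOf_isHomogeneous f).totalDegree hF0
  have hdeg : (formOf f - G).totalDegree = d := by
    rw [sub_eq_add_neg, totalDegree_add_eq_left_of_totalDegree_lt (by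
      rwa [totalDegree_neg, hFd]), hFd]
  have hirr : Irreducible ((formOf f - G).map (Int.castRingHom ℚ)) := by
    have hmapc : homogeneousComponent d ((formOf f - G).map (Int.castRingHom ℚ)) =
        (formOf f).map (Int.castRingHom ℚ) := by
      conv_rhs => rw [← htop]
      ext m
      simp only [coeff_homogeneousComponent, coeff_map]
      split <;> simp
    have hpoly : aeval ![(Polynomial.X : Polynomial ℚ), 1] ((formOf f).map (Int.castRingHom ℚ)) =
        f.map (algebraMap ℤ ℚ) := by
      conv_rhs => rw [f.as_sum_range_C_mul_X_pow]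
      simp [formOf, map_sum, Polynomial.map_sum]
    have hnd : (f.map (algebraMap ℤ ℚ)).natDegree = d :=
      Polynomial.natDegree_map_eq_of_injective Int.cast_injective f
    refine irreducible_of_top (n := d) ?_ ?_ ?_
    · simp only [MvPolynomial.totalDegree,
        support_map_of_injective _ (Int.castRingHom ℚ).injective_int] at hdeg ⊢
      exact hdeg
    · rw [hmapc, hpoly]
      exact (separable_map_of_irreducible hf hd0).1
    · rw [hmapc, hpoly, hnd]
  have hR : SimpleZeros (homogeneousComponent (formOf f - G).totalDegree (formOf f - G)) ℝ := by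
    rw [hdeg, htop]
    exact simpleZeros_formOf hf hd0 ℝ
  refine ⟨finite_sIntegralZeros hirr (hdeg ▸ hd) hR S hS fun q _ _ => by
    rw [hdeg, htop]
    exact simpleZeros_formOf hf hd0 ℚ_[q],
    (finite_integralZeros hirr (hdeg ▸ hd) hR).subset fun P hP => ?_⟩
  show MvPolynomial.eval _ (formOf f - G) = 0
  rw [map_sub, hP, sub_self]

end FA.AsymptoticDirections

end
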